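import Fermat.Agent.Lib.BadRed.Final.Sep
import Fermat.Agent.Lib.BadRed.Bridge.S34Final
import Fermat.Agent.Lib.BadRed.Bridge.AuxLevel

set_option autoImplicit false
set_option linter.style.haveILetI false
set_option linter.unusedSectionVars false
set_option linter.unusedVariables false
set_option synthInstance.maxHeartbeats 400000
set_option maxHeartbeats 1000000

/-!
# Cluster T, final wiring (helper81), part 6: the toric key lemma, `T1` and S34, UNCONDITIONAL

* `exists_modularNodal` : for every Atkin-Lehner datum `D` with `D.Q` prime and `AuxOK D`, and every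
  place `A` of `ℚ̄` over `D.Q`, the modular nodal package with its toric key statement;
* `toricKeyAt_of_auxOK : AuxOK D → ToricKeyAt D`;
* `inertiaPowSq_all N : InertiaPowSq N`,  `torsionInertiaUnipotent_all N : TorsionInertiaUnipotent N`
  (**T1**: inertia at `q ‖ N` acts unipotently on `J₀(N)[n]`, `q ∤ n`);
* `s34Statement_final : S34.S34Statement`.
-/

noncomputable section

namespace Fermat.Agent.BadRed

open IntermediateField ModularCurve AlgebraicCurve Fermat.Agent.F3 Fermat.Agent.F3G
  Fermat.Agent.GaussInt Fermat.Agent.AtkinLehner Fermat.Agent.Deuring Fermat.Agent.RR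

local notation "Qb" => AlgebraicClosure ℚ

/-- `Q ∤ R` for an Atkin-Lehner datum with `Q` prime. -/
theorem ALData_not_dvd (D : ALData) (hQ : D.Q.Prime) : ¬ D.Q ∣ D.R := by
  intro h
  have h1 : (D.Q : ℤ) ∣ (D.R : ℤ) := Int.natCast_dvd_natCast.mpr h
  have h2 : (D.Q : ℤ) ∣ (D.Q : ℤ) * D.a - (D.R : ℤ) * D.b :=
    dvd_sub (dvd_mul_right _ _) (Dvd.dvd.mul_right h1 _)
  rw [D.hdet] at h2
  have h3 : D.Q ∣ 1 := Int.natCast_dvd_natCast.mp (by simpa using h2)
  exact hQ.one_lt.ne' (Nat.dvd_one.mp h3)

/-- **the modular nodal package exists**, with its toric key statement. -/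
theorem exists_modularNodal (D : ALData) (hQ : D.Q.Prime) (haux : AuxLevel.AuxOK D)
    (A : ValuationSubring Qb) (hA : A.LiesOverPrime D.Q) :
    ∃ M : ModularNodal D A, AbstractToricKeyStatement M.N := by
  haveI : NeZero D.Q := ⟨hQ.ne_zero⟩
  haveI : NeZero D.R := ⟨D.hR.ne'⟩
  haveI : NeZero (D.Q * D.R) := ⟨mul_ne_zero hQ.ne_zero D.hR.ne'⟩
  haveI : Fact D.Q.Prime := ⟨hQ⟩
  haveI : CharP (IsLocalRing.ResidueField A) D.Q :=
    Fermat.Agent.FrobTrace.charP_residueField A hA
  haveI : IsAlgClosed (IsLocalRing.ResidueField A) := Fermat.Agent.GaussInt.isAlgClosed_residue A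
  haveI : PerfectRing (IsLocalRing.ResidueField A) D.Q := inferInstance
  have hqR := ALData_not_dvd D hQ
  have hS := isGaussSetup_gaussSetupBad D hQ hqR A hA
  have hL := hasLattice_gaussSetupBad D hQ hqR A hA
  have haux' : AuxLevelOK D.Q D.R := haux
  have hsep := fw_sep D A hQ hA hqR _ hS haux'
  exact ⟨fwModularNodal D A hQ hA hqR _ hS hL haux' hsep,
    fw_abstractToricKey D A hQ hA hqR _ hS hL haux' hsep⟩

/-- **the toric key lemma** at the Atkin-Lehner data with auxiliary level. -/
theorem toricKeyAt_of_auxOK (D : ALData) (haux : AuxLevel.AuxOK D) : ToricKeyAt D :=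
  toricKeyAt_of_modularNodal D (fun hQ A hA => exists_modularNodal D hQ haux A hA)

/-- **(E1), function form, all levels.** -/
theorem inertiaPowSq_all (N : ℕ) [NeZero N] : InertiaPowSq N :=
  AuxLevel.inertiaPowSq_of_toricKeyAt_aux (fun D _ => gaussSepAt D)
    (fun D h => toricKeyAt_of_auxOK D h) N

/-- **T1**: for `q ‖ N`, `q ∤ n`, the inertia group at `q` acts unipotently on `J₀(N)[n]`. -/
theorem torsionInertiaUnipotent_all (N : ℕ) [NeZero N] : TorsionInertiaUnipotent N :=
  torsionInertiaUnipotent_of_inertiaPowSq (inertiaPowSq_all N)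

/-- **S34** (the frozen statement, as a proposition). -/
theorem s34Statement_final : Fermat.Agent.S34.S34Statement :=
  s34Statement_of_interfaces (fun N _ =>
    ⟨Fermat.Agent.F3W.eigenclassPadic_of_kappaAllW (Fermat.Agent.F3I2.kappaAll N),
      Fermat.Agent.F3TF.torsionFinite N,
      Fermat.Agent.GaussInt.torsionUnramified_of_keyLemmaAt (Fermat.Agent.GaussInt.keyLemmaAt_all N),
      Fermat.Agent.GaussIntFP.torsionFrobQuadratic_of_keyLemmaAt
        (Fermat.Agent.GaussInt.keyLemmaAt_all N) (Fermat.Agent.F3W.heckeInputs_all N),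
      Fermat.Agent.F3.torsionOpenStab N, Fermat.Agent.F3G.heckeGaloisComm N,
      torsionInertiaUnipotent_all N⟩)

end Fermat.Agent.BadRed
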