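import Fermat.Agent.Lib.BadRed.Final.UHyp
import Fermat.Agent.Lib.BadRed.Mod.GaloisSemi
import Fermat.Agent.Lib.BadRed.Mod.AuxUnified
import Fermat.Agent.Lib.BadRed.Mod.UCuspDegFinal
import Fermat.Agent.Lib.BadRed.Mod.SSDeg
import Fermat.Agent.Lib.BadRed.Mod.SeedOfU
import Fermat.Agent.Lib.BadRed.Mod.Arch
import Fermat.Agent.Lib.BadRed.Mod.FrobAut
import Fermat.Agent.Lib.BadRed.Nodal.Deuring2.Main

set_option autoImplicit false
set_option linter.style.haveILetI false
set_option linter.unusedSectionVars false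
set_option linter.unusedVariables false
set_option synthInstance.maxHeartbeats 400000
set_option maxHeartbeats 1000000

/-!
# Cluster T, final wiring (helper81), part 2: the modular nodal core and its seed

`hS : IsGaussSetup (q R) R A S`, `hL : HasLattice S`, `u = Δ(z)/Δ(qz)`, `ϖ = q ^ 12`:

* `fwIota` : the nodes `= ` zeros of `ū = S.red u` (supersingular points of `X₀(R)` mod `q`);
* `fwCore` : the nodal core `(S, valSetupZero D S, s₁ = val, s₂ = Frob⁻¹ • s₁)`;
* `fwSeed` : the seed of `u` (`seedOfU`), given the separation hypothesis `hsep`;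
* `fw_exists_modularNodal_of_hsep` : the modular nodal package with its toric key statement.
-/

noncomputable section

namespace Fermat.Agent.BadRed

open IntermediateField ModularCurve AlgebraicCurve Fermat.Agent.F3 Fermat.Agent.F3G Fermat.Agent.GaussInt
  Fermat.Agent.AtkinLehner Fermat.Agent.Deuring Fermat.Agent.RR Fermat.Agent.BadRed.SeedNode
  Fermat.Agent.BadRed.SeedPoles

local notation "Qb" => AlgebraicClosure ℚ

variable (D : ALData) [NeZero D.Q] [NeZero D.R] [NeZero (D.Q * D.R)]
  (A : ValuationSubring Qb) (hq : D.Q.Prime) (hA : A.LiesOverPrime D.Q) (hqR : ¬ D.Q ∣ D.R)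
  (S : ValSetup Qb (modularFunctionFieldBar (D.Q * D.R)) (IsLocalRing.ResidueField A)
    (modularFunctionFieldFullC (IsLocalRing.ResidueField A) D.R))
  (hS : IsGaussSetup (D.Q * D.R) D.R A S) (hL : HasLattice S)

/-- the nodes: the zeros of the reduction of `u`. -/
abbrev fwIota : Type :=
  {v : Place (IsLocalRing.ResidueField A)
    (modularFunctionFieldFullC (IsLocalRing.ResidueField A) D.R) // 0 < v.ord (S.red (fwU D))}

/-- the nodes are finite in number. -/
def fwFintype : Fintype (fwIota D A S) :=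
  haveI := finite_ssZeros (A := A) D.R (S.red (fwU D))
  Fintype.ofFinite _

section Frob

variable [Fact D.Q.Prime] [CharP (IsLocalRing.ResidueField A) D.Q]
  [PerfectRing (IsLocalRing.ResidueField A) D.Q]

/-- **the modular nodal core** at `q ∥ q R`. -/
@[reducible] def fwCore :
    NodalCore Qb (modularFunctionFieldBar (D.Q * D.R)) (IsLocalRing.ResidueField A)
      (modularFunctionFieldFullC (IsLocalRing.ResidueField A) D.R)
      (modularFunctionFieldFullC (IsLocalRing.ResidueField A) D.R) (fwIota D A S) where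
  S₁ := S
  S₂ := valSetupZero D S
  A_eq := rfl
  res_eq := fun _ _ _ => rfl
  lat₁ := hL
  lat₂ := hasLattice_valSetupZero D S hL
  s₁ := Subtype.val
  s₂ := fun i => (frobAut (IsLocalRing.ResidueField A) D.R D.Q)⁻¹ • i.1
  s₁_inj := Subtype.val_injective
  s₂_inj := fun i j h => Subtype.ext (MulAction.injective _ h)
  arch := by
    rw [hS.A_eq]
    exact arch_algebraicClosure A hq hA

include hS hq hA in
theorem fw_hs₂ (i : fwIota D A S) :
    0 < ((frobAut (IsLocalRing.ResidueField A) D.R D.Q)⁻¹ • i.1).ord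
      ((valSetupZero D S).red
        (algebraMap Qb (modularFunctionFieldBar (D.Q * D.R)) (fwPi D) / fwU D)) := by
  rw [fw_red_pi_div, ord_frobAut_inv_smul_of_coe_ssFun _ _ _ D.Q (fw_coe_red_uF D A hq hA S hS)]
  exact i.2

include hS hq hA in
theorem fw_hz₂ (Q : Place (IsLocalRing.ResidueField A)
      (modularFunctionFieldFullC (IsLocalRing.ResidueField A) D.R))
    (hQ : 0 < Q.ord ((valSetupZero D S).red
        (algebraMap Qb (modularFunctionFieldBar (D.Q * D.R)) (fwPi D) / fwU D))) :
    ∃ i : fwIota D A S,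
      Q = (frobAut (IsLocalRing.ResidueField A) D.R D.Q)⁻¹ • i.1 := by
  rw [fw_red_pi_div] at hQ
  refine ⟨⟨frobAut (IsLocalRing.ResidueField A) D.R D.Q • Q, ?_⟩, ?_⟩
  · rw [ord_frobAut_smul_of_coe_ssFun _ _ _ D.Q (fw_coe_red_uF D A hq hA S hS)]
    exact hQ
  · rw [inv_smul_smul]

end Frob

include hS hq hA in
theorem fw_transcendental_red :
    Transcendental (IsLocalRing.ResidueField A) (S.red (fwU D)) :=
  transcendental_ss D.R hq hA _ (fw_coe_red_uF D A hq hA S hS)

include hS hq hA in
theorem fw_finiteDimensional_red :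
    FiniteDimensional (IsLocalRing.ResidueField A)⟮S.red (fwU D)⟯
      (modularFunctionFieldFullC (IsLocalRing.ResidueField A) D.R) :=
  finiteDimensional_adjoin_ss D.R hq hA _ (fw_coe_red_uF D A hq hA S hS)

include hS hq hA hqR in
theorem fw_hdeg :
    Module.finrank Qb⟮fwU D⟯ (modularFunctionFieldBar (D.Q * D.R)) ≤
      Module.finrank (IsLocalRing.ResidueField A)⟮S.red (fwU D)⟯
        (modularFunctionFieldFullC (IsLocalRing.ResidueField A) D.R) := by
  rw [finrank_uF hq rfl hqR (Dvd.intro _ rfl),
    finrank_adjoin_ss D.R hq hqR hA _ (fw_coe_red_uF D A hq hA S hS)]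

include hS hq hA in
/-- there is at least one node. -/
theorem fw_nonempty : Nonempty (fwIota D A S) := by
  haveI := Fermat.Agent.GaussInt.isAlgClosed_residue A
  have hRR := Fermat.Agent.RRMod.isRRField_fullC' (IsLocalRing.ResidueField A) D.R
  have htr := fw_transcendental_red D A hq hA S hS
  have hne : S.red (fwU D) ≠ 0 := fun h0 => htr (h0 ▸ isAlgebraic_zero)
  have htr' : Transcendental (IsLocalRing.ResidueField A) (S.red (fwU D))⁻¹ := by
    intro halg
    exact htr (by simpa using halg.inv)
  have hpos := Fermat.Agent.RRHur.degree_poleDiv_pos hRR htr'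
  by_contra hempty
  rw [not_nonempty_iff] at hempty
  have hzero : poleDiv hRR (S.red (fwU D))⁻¹ = 0 := by
    ext v
    rw [poleDiv_apply, Finsupp.zero_apply]
    have hv : ¬ 0 < v.ord (S.red (fwU D)) := fun h => hempty.false ⟨v, h⟩
    have h1 : v.ord (S.red (fwU D))⁻¹ = - v.ord (S.red (fwU D)) := Place.ord_inv v _
    rw [h1]
    omega
  rw [hzero, map_zero] at hpos
  exact lt_irrefl _ hpos

end Fermat.Agent.BadRed
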