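import Fermat.Agent.Lib.BadRed.Final.Sep
import Fermat.Agent.Lib.BadRed.Mod.GaussSetupFinal
import Fermat.Agent.Lib.BadRed.Bridge.AuxLevel
import Fermat.Agent.Lib.BadRed.Bridge.P2Mod

set_option autoImplicit false
set_option linter.style.haveILetI false
set_option linter.unusedSectionVars false
set_option linter.unusedVariables false
set_option synthInstance.maxHeartbeats 400000
set_option maxHeartbeats 1000000

/-!
# Cluster T / S35, final wiring of (P2): the Frobenius toric key  (helper18)

* `fw_frobSq` : the squares of the Frobenius elements at `A` are Frobenius-like (with `Q = q²`)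
  for the modular nodal package `fwModularNodal` (`Bridge/P2Mod.lean` applied to `fwSeed`);
* `fw_keyConcl` : the conclusion of the nodal key lemma for `fwModularNodal`;
* `exists_modularNodal_frobSq` : the input of `frobToricKeyAt_of_modularNodal`;
* `frobToricKeyAt_of_auxOK : AuxOK D → FrobToricKeyAt D`.
-/

noncomputable section

namespace Fermat.Agent.BadRed

open IntermediateField ModularCurve AlgebraicCurve Fermat.Agent.F3 Fermat.Agent.F3G
  Fermat.Agent.GaussInt Fermat.Agent.AtkinLehner Fermat.Agent.Deuring Fermat.Agent.RR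

local notation "Qb" => AlgebraicClosure ℚ

attribute [local instance] fwFintype

section

variable (D : ALData) [NeZero D.Q] [NeZero D.R] [NeZero (D.Q * D.R)]
  (A : ValuationSubring Qb) (hq : D.Q.Prime) (hA : A.LiesOverPrime D.Q) (hqR : ¬ D.Q ∣ D.R)
  (S : ValSetup Qb (modularFunctionFieldBar (D.Q * D.R)) (IsLocalRing.ResidueField A)
    (modularFunctionFieldFullC (IsLocalRing.ResidueField A) D.R))
  (hS : IsGaussSetup (D.Q * D.R) D.R A S) (hL : HasLattice S)
  [Fact D.Q.Prime] [CharP (IsLocalRing.ResidueField A) D.Q]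
  [PerfectRing (IsLocalRing.ResidueField A) D.Q]

/-- **the squares of the Frobenius elements are Frobenius-like** for the modular nodal
package. -/
theorem fw_frobSq (haux : AuxLevelOK D.Q D.R) (hsep : FwSep D A S) :
    (fwModularNodal D A hq hA hqR S hS hL haux hsep).FrobSq := by
  haveI := infinite_residue A
  intro φ hφ
  exact ⟨_, _, p2m_isFrobLike D hq hA hqR (fwSeed D A hq hA hqR S hS hL haux hsep) hS
    (fun f => Iff.rfl) (fun f _ => valSetupZero_red D S f) rfl rfl rfl (fun i => i.2)
    (fun Q hQ => ⟨⟨Q, hQ⟩, rfl⟩) (fun i => rfl) (genusFF_eq_of_aux D.R hq hqR haux hA) φ hφ⟩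

/-- the conclusion of the nodal key lemma for the modular nodal package. -/
theorem fw_keyConcl (haux : AuxLevelOK D.Q D.R) (hsep : FwSep D A S) :
    Gluing.KeyConcl (fwModularNodal D A hq hA hqR S hS hL haux hsep).N := by
  haveI := infinite_residue A
  haveI := Fermat.Agent.GaussInt.isAlgClosed_residue A
  haveI := fw_nonempty D A hq hA S hS
  exact Gluing.keyConcl_of_lift (fwSeed D A hq hA hqR S hS hL haux hsep).nodalSetup
    (fwSeed D A hq hA hqR S hS hL haux hsep).D₀ (fwSeed D A hq hA hqR S hS hL haux hsep).R₁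
    (fwSeed D A hq hA hqR S hS hL haux hsep).R₂
    (fwSeed D A hq hA hqR S hS hL haux hsep).nodalSetup_genusRel
    (fwSeed D A hq hA hqR S hS hL haux hsep).R₁_pos
    (fwSeed D A hq hA hqR S hS hL haux hsep).R₂_pos
    (fwSeed D A hq hA hqR S hS hL haux hsep).R₁_node
    (fwSeed D A hq hA hqR S hS hL haux hsep).R₂_node
    (fwSeed D A hq hA hqR S hS hL haux hsep).nodalSetup_hasLift

end

/-- `Q ∤ R` for an Atkin-Lehner datum with `Q` prime. -/
theorem fk_not_dvd (D : ALData) (hQ : D.Q.Prime) : ¬ D.Q ∣ D.R := by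
  intro h
  have h1 : (D.Q : ℤ) ∣ (D.R : ℤ) := Int.natCast_dvd_natCast.mpr h
  have h2 : (D.Q : ℤ) ∣ (D.Q : ℤ) * D.a - (D.R : ℤ) * D.b :=
    dvd_sub (dvd_mul_right _ _) (Dvd.dvd.mul_right h1 _)
  rw [D.hdet] at h2
  have h3 : D.Q ∣ 1 := Int.natCast_dvd_natCast.mp (by simpa using h2)
  exact hQ.one_lt.ne' (Nat.dvd_one.mp h3)

/-- **the modular nodal package with Frobenius-like `φ²`** (input of
`frobToricKeyAt_of_modularNodal`). -/
theorem exists_modularNodal_frobSq (D : ALData) (hQ : D.Q.Prime) (haux : AuxLevel.AuxOK D)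
    (A : ValuationSubring Qb) (hA : A.LiesOverPrime D.Q) :
    Infinite (IsLocalRing.ResidueField A) ∧
      ∃ M : ModularNodal D A, Gluing.KeyConcl M.N ∧ M.FrobSq := by
  haveI : NeZero D.Q := ⟨hQ.ne_zero⟩
  haveI : NeZero D.R := ⟨D.hR.ne'⟩
  haveI : NeZero (D.Q * D.R) := ⟨mul_ne_zero hQ.ne_zero D.hR.ne'⟩
  haveI : Fact D.Q.Prime := ⟨hQ⟩
  haveI : CharP (IsLocalRing.ResidueField A) D.Q :=
    Fermat.Agent.FrobTrace.charP_residueField A hA
  haveI : IsAlgClosed (IsLocalRing.ResidueField A) := Fermat.Agent.GaussInt.isAlgClosed_residue A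
  haveI : PerfectRing (IsLocalRing.ResidueField A) D.Q := inferInstance
  have hqR := fk_not_dvd D hQ
  have hS := isGaussSetup_gaussSetupBad D hQ hqR A hA
  have hL := hasLattice_gaussSetupBad D hQ hqR A hA
  have haux' : AuxLevelOK D.Q D.R := haux
  have hsep := fw_sep D A hQ hA hqR _ hS haux'
  exact ⟨infinite_residue A, fwModularNodal D A hQ hA hqR _ hS hL haux' hsep,
    fw_keyConcl D A hQ hA hqR _ hS hL haux' hsep, fw_frobSq D A hQ hA hqR _ hS hL haux' hsep⟩

/-- **the Frobenius toric key** (function form of (P2)) at the Atkin-Lehner data with auxiliary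
level. -/
theorem frobToricKeyAt_of_auxOK (D : ALData) (haux : AuxLevel.AuxOK D) : FrobToricKeyAt D :=
  frobToricKeyAt_of_modularNodal D (fun hQ A hA => exists_modularNodal_frobSq D hQ haux A hA)

end Fermat.Agent.BadRed
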