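import Fermat.Agent.Lib.BadRed.Final.Seed
import Fermat.Agent.Lib.BadRed.Mod.GaussSetupFinal

set_option autoImplicit false
set_option linter.style.haveILetI false
set_option linter.unusedSectionVars false
set_option linter.unusedVariables false
set_option synthInstance.maxHeartbeats 400000
set_option maxHeartbeats 1000000

/-!
# Cluster T, final wiring (helper81), part 4: the modular nodal package

* `fwModularNodal` : `ModularNodal D A` built from the modular seed `fwSeed`;
* `fw_abstractToricKey` : its abstract toric key statement (N4 + N2 + N3);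
* `exists_modularNodal_of_sep` : for `D` with `AuxOK D`, from the separation hypothesis for the
  Gauss setup `gaussSetupBad` (MA1).
-/

noncomputable section

namespace Fermat.Agent.BadRed

open IntermediateField ModularCurve AlgebraicCurve Fermat.Agent.F3 Fermat.Agent.F3G
  Fermat.Agent.GaussInt
  Fermat.Agent.AtkinLehner Fermat.Agent.Deuring Fermat.Agent.RR Fermat.Agent.BadRed.SeedNode
  Fermat.Agent.BadRed.SeedPoles

local notation "Qb" => AlgebraicClosure ℚ

attribute [local instance] fwFintype

variable (D : ALData) [NeZero D.Q] [NeZero D.R] [NeZero (D.Q * D.R)]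
  (A : ValuationSubring Qb) (hq : D.Q.Prime) (hA : A.LiesOverPrime D.Q) (hqR : ¬ D.Q ∣ D.R)
  (S : ValSetup Qb (modularFunctionFieldBar (D.Q * D.R)) (IsLocalRing.ResidueField A)
    (modularFunctionFieldFullC (IsLocalRing.ResidueField A) D.R))
  (hS : IsGaussSetup (D.Q * D.R) D.R A S) (hL : HasLattice S)
  [Fact D.Q.Prime] [CharP (IsLocalRing.ResidueField A) D.Q]
  [PerfectRing (IsLocalRing.ResidueField A) D.Q]

/-- the nodal setup of the modular seed. -/
def fwNodalSetup (haux : AuxLevelOK D.Q D.R) (hsep : FwSep D A S) :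
    NodalSetup Qb (modularFunctionFieldBar (D.Q * D.R)) (IsLocalRing.ResidueField A)
      (modularFunctionFieldFullC (IsLocalRing.ResidueField A) D.R)
      (modularFunctionFieldFullC (IsLocalRing.ResidueField A) D.R) (fwIota D A S) :=
  haveI := infinite_residue A
  (fwSeed D A hq hA hqR S hS hL haux hsep).nodalSetup

theorem fwNodalSetup_S₁ (haux : AuxLevelOK D.Q D.R) (hsep : FwSep D A S) :
    (fwNodalSetup D A hq hA hqR S hS hL haux hsep).S₁ = S := rfl

theorem fwNodalSetup_S₂ (haux : AuxLevelOK D.Q D.R) (hsep : FwSep D A S) :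
    (fwNodalSetup D A hq hA hqR S hS hL haux hsep).S₂ = valSetupZero D S := rfl

/-- inertia is inertial for the modular nodal setup. -/
theorem fw_isInertial (haux : AuxLevelOK D.Q D.R) (hsep : FwSep D A S)
    (τ : Qb ≃ₐ[ℚ] Qb) (hτ : τ ∈ A.inertiaSubgroupIn ℚ) :
    (fwNodalSetup D A hq hA hqR S hS hL haux hsep).IsInertial
      (arithmeticGalois (modularFunctionFieldFull (D.Q * D.R)) τ) := by
  haveI := infinite_residue A
  have hm₁ : ∀ f, f ∈ S.Ov →
      arithmeticGalois (modularFunctionFieldFull (D.Q * D.R)) τ • f ∈ S.Ov :=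
    hS.mem_of_inertia τ hτ
  have hr₁ : ∀ f, f ∈ S.Ov →
      S.red (arithmeticGalois (modularFunctionFieldFull (D.Q * D.R)) τ • f) = S.red f :=
    hS.red_inertia τ hτ
  refine NodalSeed.nodalSetup_isInertial (fwSeed D A hq hA hqR S hS hL haux hsep) _ hm₁ hr₁
    (valSetupZero_mem_galois D S τ hm₁) (valSetupZero_red_galois D S τ id hr₁) ?_
  intro P
  show poleDiv S.hF (fwU D + algebraMap Qb _ (fwPi D) / fwU D) _ =
    poleDiv S.hF (fwU D + algebraMap Qb _ (fwPi D) / fwU D) _
  exact cs_poleDiv_smul S.hF _
    (arithmeticGalois_smul_seedFun_pow (D.Q * D.R) D.Q (Dvd.intro _ rfl) τ 12) P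

/-- **the modular nodal package.** -/
def fwModularNodal (haux : AuxLevelOK D.Q D.R) (hsep : FwSep D A S) : ModularNodal D A where
  Fk₁ := modularFunctionFieldFullC (IsLocalRing.ResidueField A) D.R
  Fk₂ := modularFunctionFieldFullC (IsLocalRing.ResidueField A) D.R
  ι := fwIota D A S
  N := fwNodalSetup D A hq hA hqR S hS hL haux hsep
  genusRel := by
    haveI := infinite_residue A
    exact NodalSeed.nodalSetup_genusRel (fwSeed D A hq hA hqR S hS hL haux hsep)
  A_eq := hS.A_eq
  mem₁_iff := hS.mem_iff
  red₁_eq_one := fun f hf h1 => by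
    apply Subtype.ext
    rw [show (fwNodalSetup D A hq hA hqR S hS hL haux hsep).S₁ = S from rfl, hS.coe_red f hf, h1]
    rfl
  mem₂_iff := fun f => Iff.rfl
  red₂_eq_one := fun f hf h1 => by
    rw [show (fwNodalSetup D A hq hA hqR S hS hL haux hsep).S₂ = valSetupZero D S from rfl,
      valSetupZero_red]
    exact h1
  inertial := fw_isInertial D A hq hA hqR S hS hL haux hsep

/-- **the toric key statement of the modular nodal package.** -/
theorem fw_abstractToricKey (haux : AuxLevelOK D.Q D.R) (hsep : FwSep D A S) :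
    AbstractToricKeyStatement (fwModularNodal D A hq hA hqR S hS hL haux hsep).N := by
  haveI := infinite_residue A
  haveI := Fermat.Agent.GaussInt.isAlgClosed_residue A
  haveI := fw_nonempty D A hq hA S hS
  exact NodalSeed.abstractToricKey (fwSeed D A hq hA hqR S hS hL haux hsep)

end Fermat.Agent.BadRed
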