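import Fermat.Agent.Lib.BadRed.Final.Core

set_option autoImplicit false
set_option linter.style.haveILetI false
set_option linter.unusedSectionVars false
set_option linter.unusedVariables false
set_option synthInstance.maxHeartbeats 400000
set_option maxHeartbeats 1000000

/-!
# Cluster T, final wiring (helper81), part 3: the modular seed and the modular nodal package

* `FwSep`  : the separation hypothesis `hsep` of `seedOfU` for the modular core (leaf MA10-hsep);
* `fwSeed` : the modular seed `seedOfU (fwCore ..) u ϖ ..`;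
* `fwModularNodal` : the modular nodal package `ModularNodal D A` (nodal setup of the seed,
  genus relation, inertia is inertial);
* `fw_abstractToricKey` : `AbstractToricKeyStatement (fwModularNodal ..).N`.
-/

noncomputable section

namespace Fermat.Agent.BadRed

open IntermediateField ModularCurve AlgebraicCurve Fermat.Agent.F3 Fermat.Agent.F3G
  Fermat.Agent.GaussInt
  Fermat.Agent.AtkinLehner Fermat.Agent.Deuring Fermat.Agent.RR Fermat.Agent.BadRed.SeedNode
  Fermat.Agent.BadRed.SeedPoles

local notation "Qb" => AlgebraicClosure ℚ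

attribute [local instance] fwFintype

variable (D : ALData) [NeZero D.Q] [NeZero D.R] [NeZero (D.Q * D.R)]
  (A : ValuationSubring Qb) (hq : D.Q.Prime) (hA : A.LiesOverPrime D.Q) (hqR : ¬ D.Q ∣ D.R)
  (S : ValSetup Qb (modularFunctionFieldBar (D.Q * D.R)) (IsLocalRing.ResidueField A)
    (modularFunctionFieldFullC (IsLocalRing.ResidueField A) D.R))
  (hS : IsGaussSetup (D.Q * D.R) D.R A S) (hL : HasLattice S)
  [Fact D.Q.Prime] [CharP (IsLocalRing.ResidueField A) D.Q]
  [PerfectRing (IsLocalRing.ResidueField A) D.Q]

/-- the separation hypothesis of `seedOfU` for the modular core: old functions separate the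
nodes. -/
def FwSep : Prop :=
  ∀ i j : fwIota D A S, i ≠ j →
    ∃ (g : modularFunctionFieldBar (D.Q * D.R)) (c : fwIota D A S → IsLocalRing.ResidueField A),
      NodeVal S (valSetupZero D S) (fwU D) (Subtype.val : fwIota D A S → _)
        (fun i => (frobAut (IsLocalRing.ResidueField A) D.R D.Q)⁻¹ • i.1) g c ∧ c i ≠ c j

/-- **the modular seed.** -/
def fwSeed (haux : AuxLevelOK D.Q D.R) (hsep : FwSep D A S) :
    NodalSeed Qb (modularFunctionFieldBar (D.Q * D.R)) (IsLocalRing.ResidueField A)
      (modularFunctionFieldFullC (IsLocalRing.ResidueField A) D.R)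
      (modularFunctionFieldFullC (IsLocalRing.ResidueField A) D.R) (fwIota D A S) :=
  haveI := infinite_residue A
  haveI : FiniteDimensional Qb⟮fwU D⟯ (modularFunctionFieldBar (D.Q * D.R)) :=
    finiteDimensional_uF hq (Dvd.intro _ rfl)
  haveI : FiniteDimensional (IsLocalRing.ResidueField A)⟮S.red (fwU D)⟯
      (modularFunctionFieldFullC (IsLocalRing.ResidueField A) D.R) :=
    fw_finiteDimensional_red D A hq hA S hS
  haveI : FiniteDimensional (IsLocalRing.ResidueField A)⟮(valSetupZero D S).red
        (algebraMap Qb (modularFunctionFieldBar (D.Q * D.R)) (fwPi D) / fwU D)⟯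
      (modularFunctionFieldFullC (IsLocalRing.ResidueField A) D.R) := by
    rw [fw_red_pi_div]
    exact fw_finiteDimensional_red D A hq hA S hS
  seedOfU (fwCore D A hq hA S hS hL) (fwU D) (fwPi D) (fw_pi_ne_zero D hq)
    (fw_pi_mem D A hA S hS) (fw_pi_res D A hq hA S hS) (fw_uF_mem D A S hS)
    (fw_transcendental_red D A hq hA S hS) (fw_pi_div_mem D A S hS)
    (by
      show Transcendental _ ((valSetupZero D S).red _)
      rw [fw_red_pi_div]
      exact fw_transcendental_red D A hq hA S hS)
    (fw_hdeg D A hq hA hqR S hS)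
    (by
      show _ ≤ Module.finrank (IsLocalRing.ResidueField A)⟮(valSetupZero D S).red
        (algebraMap Qb (modularFunctionFieldBar (D.Q * D.R)) (fwPi D) / fwU D)⟯ _
      rw [fw_red_pi_div]
      exact fw_hdeg D A hq hA hqR S hS)
    (fun i => i.2) (fw_hs₂ D A hq hA S hS) (fun Q hQ => ⟨⟨Q, hQ⟩, rfl⟩)
    (fw_hz₂ D A hq hA S hS) hsep
    (ssCount_ge_fintype_of_aux D.R (D.Q * D.R) hq hqR haux rfl hA (S.red (fwU D))
      (fw_coe_red_uF D A hq hA S hS))

end Fermat.Agent.BadRed
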