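import Fermat.Agent.Lib.BadRed.Final.Nodal
import Fermat.Agent.Lib.BadRed.Mod.OldRed
import Fermat.Agent.Lib.BadRed.Mod.AuxUnified
import Fermat.Agent.Lib.BadRed.Mod.UCuspDegFinal

set_option autoImplicit false
set_option linter.style.haveILetI false
set_option linter.unusedSectionVars false
set_option linter.unusedVariables false
set_option synthInstance.maxHeartbeats 400000
set_option maxHeartbeats 1000000

/-!
# Cluster T, final wiring (helper81), part 5: old functions separate the nodes (`FwSep`)

From MA6c (`exists_oldSep_of_aux`, helper79 / helper94), MA6b (`OldRed`, helper33), MA6a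
(`frobAut`, helper18) and MA4 (`ord_jBar_neg_iff_uF`, helper16 / helper84 / helper47).
-/

noncomputable section

namespace Fermat.Agent.BadRed

open IntermediateField ModularCurve AlgebraicCurve Fermat.Agent.F3 Fermat.Agent.F3G
  Fermat.Agent.GaussInt
  Fermat.Agent.AtkinLehner Fermat.Agent.Deuring Fermat.Agent.RR Fermat.Agent.BadRed.SeedNode
  Fermat.Agent.BadRed.SeedPoles

local notation "Qb" => AlgebraicClosure ℚ

attribute [local instance] fwFintype

variable (D : ALData) [NeZero D.Q] [NeZero D.R] [NeZero (D.Q * D.R)]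
  (A : ValuationSubring Qb) (hq : D.Q.Prime) (hA : A.LiesOverPrime D.Q) (hqR : ¬ D.Q ∣ D.R)
  (S : ValSetup Qb (modularFunctionFieldBar (D.Q * D.R)) (IsLocalRing.ResidueField A)
    (modularFunctionFieldFullC (IsLocalRing.ResidueField A) D.R))
  (hS : IsGaussSetup (D.Q * D.R) D.R A S) (hL : HasLattice S)
  [Fact D.Q.Prime] [CharP (IsLocalRing.ResidueField A) D.Q]
  [PerfectRing (IsLocalRing.ResidueField A) D.Q]

include hS hq hA hqR in
/-- **old functions separate the nodes.** -/
theorem fw_sep (haux : AuxLevelOK D.Q D.R) : FwSep D A S := by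
  classical
  intro i j hij
  have hh := fw_coe_red_uF D A hq hA S hS
  have hreg : ∀ l : fwIota D A S,
      0 ≤ l.1.ord (Fermat.Agent.RRMod.jC (IsLocalRing.ResidueField A) D.R) := fun l =>
    (ord_ss_nonneg_iff D.R hq hA _ hh l.1).mp l.2.le
  obtain ⟨g₀, hg₀, hpole, -, hval⟩ := exists_oldSep_of_aux D.R hq hqR haux hA
    (Subtype.val : fwIota D A S → _) Subtype.val_injective hreg
    (fun l => if l = i then (1 : IsLocalRing.ResidueField A) else 0)
  refine ⟨alphaQ D g₀, fun l => if l = i then (1 : IsLocalRing.ResidueField A) else 0,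
    ⟨alphaQ_mem_Ov D A hq hA hqR S hS g₀ hg₀, alphaQ_mem_Ov_zero D A hq hA hqR S hS g₀ hg₀,
      ?_, ?_, ?_⟩, ?_⟩
  · intro v hv
    apply ord_alphaQ_nonneg D g₀ hpole v
    by_contra h
    exact (ord_jBar_neg_iff_uF hq (Dvd.intro _ rfl) v).mp (not_le.mp h) hv
  · intro l
    rw [red_alphaQ D A hq hA hqR S hS g₀ hg₀]
    exact hval l
  · intro l
    rw [valAt_red_zero_alphaQ D A hq hA hqR S hS g₀ hg₀, smul_inv_smul]
    exact hval l
  · simp only [if_true, if_neg (Ne.symm hij)]
    exact one_ne_zero

end Fermat.Agent.BadRed
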