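import Fermat.Agent.Lib.BadRed.Mod.GaussSetup
import Fermat.Agent.Lib.BadRed.Mod.UParamW
import Fermat.Agent.Lib.BadRed.Mod.ValZero
import Fermat.Agent.Lib.FrobTrace.Residue

set_option autoImplicit false
set_option linter.style.haveILetI false
set_option linter.unusedSectionVars false
set_option synthInstance.maxHeartbeats 400000

/-!
# Cluster T, final wiring (helper81), part 1 (= leaf MA2): the parameter `u = Δ(z)/Δ(qz)`

For `hS : IsGaussSetup (q R) R A S`, `u = uF (q R) q`, `ϖ = q ^ 12`: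
`u ∈ S.Ov`, `S.red u` has the expansion `ssFun k q`, `ϖ ∈ S.A`, `res ϖ = 0`,
`ϖ / u ∈ (valSetupZero D S).Ov` and `(valSetupZero D S).red (ϖ / u) = S.red u`.
-/

noncomputable section

namespace Fermat.Agent.BadRed

open ModularCurve AlgebraicCurve Fermat.Agent.F3 Fermat.Agent.F3G Fermat.Agent.GaussInt
  Fermat.Agent.AtkinLehner Fermat.Agent.Deuring

local notation "Qb" => AlgebraicClosure ℚ

variable (D : ALData) [NeZero D.Q] [NeZero D.R] [NeZero (D.Q * D.R)]
  (A : ValuationSubring Qb) (hq : D.Q.Prime) (hA : A.LiesOverPrime D.Q)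
  (S : ValSetup Qb (modularFunctionFieldBar (D.Q * D.R)) (IsLocalRing.ResidueField A)
    (modularFunctionFieldFullC (IsLocalRing.ResidueField A) D.R))
  (hS : IsGaussSetup (D.Q * D.R) D.R A S)

/-- the parameter `u = Δ(z)/Δ(qz)` at level `q R`. -/
abbrev fwU : modularFunctionFieldBar (D.Q * D.R) := uF (D.Q * D.R) D.Q (Dvd.intro _ rfl)

theorem fw_coe_uF_eq_emb :
    ((fwU D : modularFunctionFieldBar (D.Q * D.R)) : LaurentSeries Qb) = emb A (uSer A D.Q) := by
  rw [coe_uF]
  exact (coeffMap_uSer (R := A) D.Q A.subtype).symm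

include hS in
/-- `u` is integral for `v_∞`. -/
theorem fw_uF_mem : fwU D ∈ S.Ov := by
  rw [hS.mem_iff, fw_coe_uF_eq_emb D A]
  apply emb_mem_gaussSub
  rw [← fw_coe_uF_eq_emb D A]
  exact (fwU D).2

include hS hq hA in
/-- the reduction of `u` is the supersingular function. -/
theorem fw_coe_red_uF :
    ((S.red (fwU D) : modularFunctionFieldFullC (IsLocalRing.ResidueField A) D.R) :
      LaurentSeries (IsLocalRing.ResidueField A)) = ssFun (IsLocalRing.ResidueField A) D.Q := by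
  haveI : Fact D.Q.Prime := ⟨hq⟩
  haveI : CharP (IsLocalRing.ResidueField A) D.Q := Fermat.Agent.FrobTrace.charP_residueField A hA
  rw [hS.coe_red _ (fw_uF_mem D A S hS), fw_coe_uF_eq_emb D A]
  have hmem : emb A (uSer A D.Q) ∈ modularFunctionFieldBar (D.Q * D.R) := by
    rw [← fw_coe_uF_eq_emb D A]
    exact (fwU D).2
  rw [gaussResFun_emb hmem]
  show coeffMap (IsLocalRing.residue A) (uSer A D.Q) = _
  rw [coeffMap_uSer, uSer_eq_ssFun]

/-- `ϖ = q ^ 12`. -/
abbrev fwPi : Qb := (D.Q : Qb) ^ 12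

include hq in
theorem fw_pi_ne_zero : fwPi D ≠ 0 :=
  pow_ne_zero _ (by exact_mod_cast hq.ne_zero)

include hA in
theorem fw_pi_mem_A : fwPi D ∈ A :=
  pow_mem (by exact_mod_cast (natCast_mem A D.Q)) 12

include hS hA in
theorem fw_pi_mem : fwPi D ∈ S.A := by
  rw [hS.A_eq]
  exact fw_pi_mem_A D A hA

include hS hq hA in
theorem fw_pi_res : S.res ⟨fwPi D, fw_pi_mem D A hA S hS⟩ = 0 := by
  haveI : Fact D.Q.Prime := ⟨hq⟩
  haveI : CharP (IsLocalRing.ResidueField A) D.Q := Fermat.Agent.FrobTrace.charP_residueField A hA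
  rw [hS.res_eq _ _ (fw_pi_mem_A D A hA)]
  have h1 : (⟨fwPi D, fw_pi_mem_A D A hA⟩ : A) = ((D.Q : ℕ) : A) ^ 12 := by
    apply Subtype.ext
    simp [fwPi]
  rw [h1, map_pow, map_natCast, CharP.cast_eq_zero, zero_pow (by norm_num)]

/-- `w_q (ϖ / u) = u`. -/
theorem fw_atkinLehner_pi_div :
    atkinLehner D (algebraMap Qb (modularFunctionFieldBar (D.Q * D.R)) (fwPi D) / fwU D)
      = fwU D := by
  rw [map_div₀, AlgEquiv.commutes, atkinLehner_uF]
  have h1 : algebraMap Qb (modularFunctionFieldBar (D.Q * D.R)) (fwPi D) =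
      (D.Q : modularFunctionFieldBar (D.Q * D.R)) ^ 12 := by
    rw [fwPi, map_pow, map_natCast]
  have hne : (D.Q : modularFunctionFieldBar (D.Q * D.R)) ^ 12 ≠ 0 :=
    pow_ne_zero _ (by exact_mod_cast NeZero.ne D.Q)
  rw [h1]
  exact div_div_cancel₀ hne

include hS in
/-- `ϖ / u` is integral for `v_0`. -/
theorem fw_pi_div_mem :
    algebraMap Qb (modularFunctionFieldBar (D.Q * D.R)) (fwPi D) / fwU D ∈ (valSetupZero D S).Ov := by
  rw [mem_valSetupZero_Ov, fw_atkinLehner_pi_div]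
  exact fw_uF_mem D A S hS

/-- the `v_0`-reduction of `ϖ / u` is the `v_∞`-reduction of `u`. -/
theorem fw_red_pi_div :
    (valSetupZero D S).red (algebraMap Qb (modularFunctionFieldBar (D.Q * D.R)) (fwPi D) / fwU D)
      = S.red (fwU D) := by
  rw [valSetupZero_red, fw_atkinLehner_pi_div]

end Fermat.Agent.BadRed
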